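import Fermat.Agent.S33.H862.SplitAdapter
import Fermat.Agent.S33.Spec2
import Fermat.Agent.Ribet.H801.Deg

/-!
# S33, leaf NEW — `OrdFilStatement` from the RIBET leaf (S2) (helper862)

`ordFil_of_s2 : Ribet.H884.S2Statement → S33.OrdFilStatement` (VERBATIM `S33/Spec2.lean`):

* `α, β` := `Ribet.H801.alphaL`, `betaL` (W-DEG, on main);
* `𝒮` := `S33.H855.splitMin` (classes with a Kummer generator with constant reductions);
* (S1⁺) = `S33.H855.aug_le_splitMin` (on main, unconditional);
* (S2) for `splitMin` = restriction of (S2) for `splitPart` along the adapter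
  `S33.H862.splitMin_le_splitPart`.

So S33 needs from the wall at `p` EXACTLY `Ribet.H884.S2Statement`, with no change of its shape.
Also `ordFil_of_s2For` for any family of subgroups `𝒮 ⊇ splitMin` satisfying `Wall.S2For`.
-/

set_option autoImplicit false
set_option linter.unusedSectionVars false
set_option linter.style.haveILetI false
set_option synthInstance.maxHeartbeats 400000
set_option maxHeartbeats 1000000

noncomputable section

namespace Fermat.Agent.S33.H862

open ModularCurve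
open Fermat.Agent.Ribet.H884 Fermat.Agent.Ribet.H944.Wall Fermat.Agent.Ribet.H801

/-- (S1⁺) for `splitMin`, in the shape of `S33.OrdFilStatement`. -/
theorem mem_splitMin_of_inSPlus {p : ℕ} (hp : p.Prime) (N : ℕ) [NeZero N]
    (A : ValuationSubring (AlgebraicClosure ℚ)) (hA : A.LiesOverPrime p) (x : JZero N)
    (hx : Fermat.Agent.S33.InSPlus (A.inertiaSubgroupIn ℚ) p x) :
    x ∈ Fermat.Agent.S33.H855.splitMin A hp.ne_zero hA N := by
  obtain ⟨hpx, n, hn⟩ := hx
  refine Fermat.Agent.S33.H855.aug_le_splitMin A hp.ne_zero hA N hp n x ?_ hpx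
  refine AddSubgroup.closure_mono ?_ hn
  rintro z ⟨σ, hσ, y, hy, rfl⟩
  refine ⟨σ, hσ, y, ?_, rfl⟩
  have hy' : p ^ n • y = 0 := hy
  rw [pow_succ, mul_nsmul, hy', nsmul_zero]

/-- **NEW** from (S2) for any subgroups containing `splitMin`. -/
theorem ordFil_of_s2For
    (𝒮 : ∀ (p M' : ℕ) [NeZero (p * M')] (_ : ValuationSubring (AlgebraicClosure ℚ)),
      AddSubgroup (JZero (p * M')))
    (hle : ∀ (p M' : ℕ) [NeZero (p * M')] (hp : p.Prime)
      (A : ValuationSubring (AlgebraicClosure ℚ)) (hA : A.LiesOverPrime p),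
      Fermat.Agent.S33.H855.splitMin A hp.ne_zero hA (p * M') ≤ 𝒮 p M' A)
    (h2 : ∀ (p M' : ℕ) [NeZero M'] [NeZero p] [NeZero (p * M')], p.Prime → p ≠ 2 → ¬ p ∣ M' →
      ∀ A : ValuationSubring (AlgebraicClosure ℚ), A.LiesOverPrime p →
        S2For p M' A (𝒮 p M' A)) :
    Fermat.Agent.S33.OrdFilStatement := by
  intro p M' _ _ hp hp2 hpM
  haveI : NeZero p := ⟨hp.ne_zero⟩
  refine ⟨alphaL p M', betaL p M', alphaL_smul p M', betaL_smul p M', fun A hA => ?_⟩
  refine ⟨(Fermat.Agent.S33.H855.splitMin A hp.ne_zero hA (p * M') : Set (JZero (p * M'))),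
    fun x hx => mem_splitMin_of_inSPlus hp (p * M') A hA x hx, ?_⟩
  intro x hx hpx hα hβ σ hσ c hc
  exact h2 p M' hp hp2 hpM A hA x (hle p M' hp A hA hx) ⟨hpx, hα, hβ⟩ σ hσ c hc

/-- **NEW** (`S33.OrdFilStatement`) from the RIBET leaf (S2) (`Ribet.H884.S2Statement`). -/
theorem ordFil_of_s2 (h2 : S2Statement) : Fermat.Agent.S33.OrdFilStatement :=
  ordFil_of_s2For (fun p M' _ A => splitPart p M' A)
    (fun p M' _ hp A hA => splitMin_le_splitPart p M' A hp.ne_zero hA)
    (fun p M' _ _ _ hp hp2 hpM A hA => h2 p M' hp hp2 hpM A hA)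

end Fermat.Agent.S33.H862

end
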