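import Fermat.Agent.S33.H862.OrdFil

/-!
# S33, leaf NEW at READY levels (helper862)

The wall at `p` delivers (S2) only at the READY levels (`p = 3 → 2 ∣ M'`: the levels at which the
semistable model at `q = p` exists, cf. `S33/H92/LevelBridge.lean`, `S33/H810/KeyD2.lean`).

* `S2ReadyStatement` : `Ribet.H884.S2Statement` with the extra hypothesis `p = 3 → 2 ∣ M'`;
* `ordFilReady_of_s2For` : the READY form of `S33.OrdFilStatement` from (S2) at ready levels for
  any family of subgroups `𝒮 ⊇ splitMin`;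
* `ordFilReady_of_s2Ready` : the same from `S2ReadyStatement` (`𝒮 = splitPart`).

The conclusions are stated UNFOLDED; they are syntactically the bodies of
`S33.H92.OrdFilReadyStatement` and of `S33.H810.OrdFilReadyStatement`, so
`H92.keyStatement_of_ready (ordFilReady_of_s2Ready h) hOLD` typechecks (no import of either file
is forced on the final chain).
-/

set_option autoImplicit false
set_option linter.unusedSectionVars false
set_option linter.style.haveILetI false
set_option synthInstance.maxHeartbeats 400000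
set_option maxHeartbeats 1000000

noncomputable section

namespace Fermat.Agent.S33.H862

open ModularCurve
open Fermat.Agent.Ribet.H884 Fermat.Agent.Ribet.H944.Wall Fermat.Agent.Ribet.H801

/-- **(S2) at READY levels**: `Ribet.H884.S2Statement` with the extra hypothesis
`p = 3 → 2 ∣ M'`. -/
def S2ReadyStatement : Prop :=
  ∀ (p M' : ℕ) [NeZero M'] [NeZero p] [NeZero (p * M')], p.Prime → p ≠ 2 → ¬ p ∣ M' →
    (p = 3 → 2 ∣ M') →
    ∀ A : ValuationSubring (AlgebraicClosure ℚ), A.LiesOverPrime p →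
      S2For p M' A (splitPart p M' A)

/-- The full (S2) implies (S2) at ready levels. -/
theorem s2Ready_of_s2 (h : S2Statement) : S2ReadyStatement :=
  fun p M' _ _ _ hp hp2 hpM _ A hA => h p M' hp hp2 hpM A hA

/-- **NEW at READY levels** from (S2) at ready levels, for any subgroups containing
`splitMin`. -/
theorem ordFilReady_of_s2For
    (𝒮 : ∀ (p M' : ℕ) [NeZero (p * M')] (_ : ValuationSubring (AlgebraicClosure ℚ)),
      AddSubgroup (JZero (p * M')))
    (hle : ∀ (p M' : ℕ) [NeZero (p * M')] (hp : p.Prime)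
      (A : ValuationSubring (AlgebraicClosure ℚ)) (hA : A.LiesOverPrime p),
      Fermat.Agent.S33.H855.splitMin A hp.ne_zero hA (p * M') ≤ 𝒮 p M' A)
    (h2 : ∀ (p M' : ℕ) [NeZero M'] [NeZero p] [NeZero (p * M')], p.Prime → p ≠ 2 → ¬ p ∣ M' →
      (p = 3 → 2 ∣ M') →
      ∀ A : ValuationSubring (AlgebraicClosure ℚ), A.LiesOverPrime p →
        S2For p M' A (𝒮 p M' A)) :
    ∀ (p M' : ℕ) [NeZero M'] [NeZero (p * M')], p.Prime → p ≠ 2 → ¬ p ∣ M' → (p = 3 → 2 ∣ M') →
      ∃ (α β : ModularCurve.JZero (p * M') →+ ModularCurve.JZero M'),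
        (∀ (σ : Fermat.Agent.S31.GQ) (x : ModularCurve.JZero (p * M')), α (σ • x) = σ • α x) ∧
        (∀ (σ : Fermat.Agent.S31.GQ) (x : ModularCurve.JZero (p * M')), β (σ • x) = σ • β x) ∧
        ∀ A : ValuationSubring Fermat.Agent.S31.Qb, A.LiesOverPrime p →
          ∃ 𝒮' : Set (ModularCurve.JZero (p * M')),
            (∀ x : ModularCurve.JZero (p * M'),
              Fermat.Agent.S33.InSPlus (A.inertiaSubgroupIn ℚ) p x → x ∈ 𝒮') ∧
            (∀ x ∈ 𝒮', p • x = 0 → α x = 0 → β x = 0 →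
              ∀ σ ∈ A.inertiaSubgroupIn ℚ, ∀ c : ℕ,
                (∀ ζ : Fermat.Agent.S31.Qb, ζ ^ p = 1 → σ ζ = ζ ^ c) → σ • x = c • x) := by
  intro p M' _ _ hp hp2 hpM hr
  haveI : NeZero p := ⟨hp.ne_zero⟩
  refine ⟨alphaL p M', betaL p M', alphaL_smul p M', betaL_smul p M', fun A hA => ?_⟩
  refine ⟨(Fermat.Agent.S33.H855.splitMin A hp.ne_zero hA (p * M') : Set (JZero (p * M'))),
    fun x hx => mem_splitMin_of_inSPlus hp (p * M') A hA x hx, ?_⟩
  intro x hx hpx hα hβ σ hσ c hc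
  exact h2 p M' hp hp2 hpM hr A hA x (hle p M' hp A hA hx) ⟨hpx, hα, hβ⟩ σ hσ c hc

/-- **NEW at READY levels** from the RIBET leaf (S2) at ready levels. -/
theorem ordFilReady_of_s2Ready (h2 : S2ReadyStatement) :
    ∀ (p M' : ℕ) [NeZero M'] [NeZero (p * M')], p.Prime → p ≠ 2 → ¬ p ∣ M' → (p = 3 → 2 ∣ M') →
      ∃ (α β : ModularCurve.JZero (p * M') →+ ModularCurve.JZero M'),
        (∀ (σ : Fermat.Agent.S31.GQ) (x : ModularCurve.JZero (p * M')), α (σ • x) = σ • α x) ∧
        (∀ (σ : Fermat.Agent.S31.GQ) (x : ModularCurve.JZero (p * M')), β (σ • x) = σ • β x) ∧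
        ∀ A : ValuationSubring Fermat.Agent.S31.Qb, A.LiesOverPrime p →
          ∃ 𝒮' : Set (ModularCurve.JZero (p * M')),
            (∀ x : ModularCurve.JZero (p * M'),
              Fermat.Agent.S33.InSPlus (A.inertiaSubgroupIn ℚ) p x → x ∈ 𝒮') ∧
            (∀ x ∈ 𝒮', p • x = 0 → α x = 0 → β x = 0 →
              ∀ σ ∈ A.inertiaSubgroupIn ℚ, ∀ c : ℕ,
                (∀ ζ : Fermat.Agent.S31.Qb, ζ ^ p = 1 → σ ζ = ζ ^ c) → σ • x = c • x) :=
  ordFilReady_of_s2For (fun p M' _ A => splitPart p M' A)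
    (fun p M' _ hp A hA => splitMin_le_splitPart p M' A hp.ne_zero hA)
    (fun p M' _ _ _ hp hp2 hpM hr A hA => h2 p M' hp hp2 hpM hr A hA)

end Fermat.Agent.S33.H862

end
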