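import Fermat.Agent.S33.H855.TowerModular
import Fermat.Agent.Ribet.H884.SlopeSpec
import Fermat.Agent.A2.H553.Bridge708

/-!
# S33 / RIBET wall-`p` — the adapter `splitMin ≤ splitPart` (helper862)

`S33.H855.splitMin A hp hA N` (valuation form: classes with a Kummer generator which is
`constant × (1 + 𝔪)` at both Gauss rings `VinfModular`, `VzeroModular` of `A2/H553`) is contained in
`Ribet.H884.splitPart p M' A` (`t`-expansion form: classes with a Kummer generator whose two
reductions are `PDivSeries` and `SplitSeries`), `N = p * M'`.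

Proof: a function `f = c · (1 + m)`, `v∞(m) < 1`, has the reduction `1` on `C∞`
(`isRedInf_one_of_constOne`: normal form `f · U₂ = c · U₁` with `Ū₁ = Ū₂`), the same for `w_N f`
on `C₀`; the constant series `1` is `PDivSeries` and `SplitSeries`.

Consequence: every statement of the form `∀ x ∈ splitPart, …` (e.g. `Ribet.H884.S2Statement`,
`Wall.S2For`) restricts to `splitMin`, for which (S1⁺) is `S33.H855.aug_le_splitMin`.
-/

set_option autoImplicit false
set_option linter.unusedSectionVars false
set_option linter.style.haveILetI false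
set_option synthInstance.maxHeartbeats 400000
set_option maxHeartbeats 1000000

noncomputable section

namespace Fermat.Agent.S33.H862

open AlgebraicCurve ModularCurve HahnSeries
open Fermat.Agent.S24 Fermat.Agent.A2.H708 Fermat.Agent.A2.H528 Fermat.Agent.A2.H129
open Fermat.Agent.Ribet.H884

section Red

variable {N : ℕ} [NeZero N] (A : ValuationSubring Kbar) {p : ℕ} (hp : p ≠ 0)
  (hA : A.LiesOverPrime p)

/-- The Gauss valuation ring of `A2/H553` is the one of `A2/H708`. -/
theorem vinfModular_eq_gaussInf :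
    Fermat.Agent.A2.H553.VinfModular A hp hA N =
      gaussInf A (modularFunctionFieldFull N) (intGen_full N)
        (attainsMax_Qbar hp hA (modularFunctionFieldFull N)) :=
  Fermat.Agent.A2.H553.Vinf_eq_gaussInf _ _ _

/-- A function in `1 + 𝔪_{V∞}` has a normal form `g · U₂ = U₁` with `Ū₁ = Ū₂ ≠ 0`. -/
theorem exists_normal_form_of_oneAddNonunits {g : FF N}
    (hg : OneAddNonunits (Fermat.Agent.A2.H553.VinfModular A hp hA N) g) :
    ∃ U₁ U₂ : LaurentSeries A, red A U₁ ≠ 0 ∧ red A U₂ ≠ 0 ∧
      (g : LaurentSeries Kbar) * incl A U₂ = incl A U₁ ∧ red A U₂ = red A U₁ := by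
  rw [vinfModular_eq_gaussInf A hp hA] at hg
  have hgen := intGen_full N
  have hmax := attainsMax_Qbar (A := A) hp hA (modularFunctionFieldFull N)
  have hg1 : (gaussInf A (modularFunctionFieldFull N) hgen hmax).valuation (g - 1) < 1 := hg
  -- `v(g) = 1`
  have hvg : (gaussInf A (modularFunctionFieldFull N) hgen hmax).valuation g = 1 := by
    have h := Valuation.map_add_eq_of_lt_left
      (gaussInf A (modularFunctionFieldFull N) hgen hmax).valuation
      (show (gaussInf A (modularFunctionFieldFull N) hgen hmax).valuation (g - 1) <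
        (gaussInf A (modularFunctionFieldFull N) hgen hmax).valuation (1 : FF N) by
          rw [map_one]; exact hg1)
    rw [map_one] at h
    have e : (1 : FF N) + (g - 1) = g := by ring
    rw [e] at h
    exact h
  have hg0 : g ≠ 0 := by
    rintro rfl
    rw [map_zero] at hvg
    exact zero_ne_one hvg
  have hg0' : (g : LaurentSeries Kbar) ≠ 0 := fun h => hg0 (Subtype.ext h)
  obtain ⟨c, U₁, U₂, hc, h₁, h₂, hm₁, hm₂, he⟩ :=
    exists_normal_form (A := A) hgen hmax g.2 hg0'
  have hle : A.valuation c ≤ 1 :=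
    (valuation_le_one_iff_of_normal_form hgen hmax h₁ h₂ hm₂ he).mp (le_of_eq hvg)
  have hnlt : ¬ A.valuation c < 1 := fun hlt =>
    absurd ((valuation_lt_one_iff_of_normal_form hgen hmax hc h₁ h₂ hm₁ he).mpr hlt)
      (by rw [hvg]; exact lt_irrefl _)
  have hcA : c ∈ A := (A.valuation_le_one_iff c).mp hle
  have hres : IsLocalRing.residue A (⟨c, hcA⟩ : A) ≠ 0 := by
    intro h0
    rw [IsLocalRing.residue_eq_zero_iff] at h0
    exact hnlt ((A.valuation_lt_one_iff _).mp h0)
  -- absorb the unit constant into `U₁`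
  have he' : (g : LaurentSeries Kbar) * incl A U₂ = incl A (cstA A ⟨c, hcA⟩ * U₁) := by
    rw [map_mul, incl_cstA]
    exact he
  have h₁' : red A (cstA A ⟨c, hcA⟩ * U₁) ≠ 0 := by
    rw [map_mul, red_cstA]
    refine mul_ne_zero ?_ h₁
    exact HahnSeries.single_ne_zero hres
  refine ⟨cstA A ⟨c, hcA⟩ * U₁, U₂, h₁', h₂, he', ?_⟩
  -- the difference has reduction `0`
  by_contra hne
  have hD0 : red A (cstA A ⟨c, hcA⟩ * U₁ - U₂) ≠ 0 := by
    rw [map_sub]
    intro h0
    exact hne (sub_eq_zero.mp h0).symm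
  have hcoe : (((g - 1 : FF N)) : LaurentSeries Kbar) = (g : LaurentSeries Kbar) - 1 := rfl
  have heD : (((g - 1 : FF N)) : LaurentSeries Kbar) * incl A U₂ =
      cst (1 : Kbar) * incl A (cstA A ⟨c, hcA⟩ * U₁ - U₂) := by
    rw [hcoe, cst_one, one_mul, map_sub, ← he']
    ring
  have hmD : incl A (cstA A ⟨c, hcA⟩ * U₁ - U₂) ∈
      laurentBaseChange Kbar (modularFunctionFieldFull N) := by
    have h1 : incl A (cstA A ⟨c, hcA⟩ * U₁ - U₂) =
        (((g - 1 : FF N)) : LaurentSeries Kbar) * incl A U₂ := by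
      rw [heD, cst_one, one_mul]
    rw [h1]
    exact mul_mem (g - 1).2 hm₂
  have hlt1 := (valuation_lt_one_iff_of_normal_form hgen hmax one_ne_zero hD0 h₂ hmD heD).mp hg1
  rw [map_one] at hlt1
  exact lt_irrefl _ hlt1

/-- **Reduction `1` on `C∞`**: a function which is `constant × (1 + 𝔪)` at `V∞` has the
reduction `1`. -/
theorem isRedInf_one_of_constOne {f : FF N}
    (hf : Fermat.Agent.S33.H855.ConstOne
      (Fermat.Agent.A2.H553.constField (modularFunctionFieldFull N))
      (Fermat.Agent.A2.H553.VinfModular A hp hA N) f) :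
    IsRedInf N A f 1 := by
  obtain ⟨c, ⟨c₀, rfl⟩, hc, hone⟩ := hf
  have hc₀ : c₀ ≠ 0 := by
    rintro rfl
    exact hc (map_zero _)
  obtain ⟨U₁, U₂, h₁, h₂, he, hr⟩ := exists_normal_form_of_oneAddNonunits A hp hA hone
  refine ⟨c₀, U₁, U₂, hc₀, h₁, h₂, ?_, by rw [one_mul]; exact hr⟩
  have hcoe : ((f * (algebraMap Kbar (FF N) c₀)⁻¹ : FF N) : LaurentSeries Kbar) =
      (f : LaurentSeries Kbar) * (cst c₀)⁻¹ := by
    rw [IntermediateField.coe_mul, IntermediateField.coe_inv]
    rfl
  have he2 : (f : LaurentSeries Kbar) * (cst c₀)⁻¹ * incl A U₂ = incl A U₁ := by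
    rw [← hcoe]
    exact he
  calc (f : LaurentSeries Kbar) * incl A U₂
      = cst c₀ * ((f : LaurentSeries Kbar) * (cst c₀)⁻¹ * incl A U₂) := by
        have hne := cst_ne_zero hc₀
        field_simp
    _ = cst c₀ * incl A U₁ := by rw [he2]

/-- `constant × (1 + 𝔪)` at `V₀` for `f` is `constant × (1 + 𝔪)` at `V∞` for `w_N f`. -/
theorem constOne_wF_of_constOne_Vzero {f : FF N}
    (hf : Fermat.Agent.S33.H855.ConstOne
      (Fermat.Agent.A2.H553.constField (modularFunctionFieldFull N))
      (Fermat.Agent.A2.H553.VzeroModular A hp hA N) f) :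
    Fermat.Agent.S33.H855.ConstOne
      (Fermat.Agent.A2.H553.constField (modularFunctionFieldFull N))
      (Fermat.Agent.A2.H553.VinfModular A hp hA N) (wF N f) := by
  obtain ⟨c, hcK, hc, hone⟩ := hf
  refine ⟨c, hcK, hc, ?_⟩
  have h1 : (Fermat.Agent.A2.H553.VzeroModular A hp hA N).valuation (f * c⁻¹ - 1) < 1 := hone
  rw [Fermat.Agent.A2.H553.VzeroModular_eq_comapAut,
    Fermat.Agent.A2.H553.valuation_comapAut_lt_one_iff] at h1
  have h2 : (wF N).toRingEquiv (f * c⁻¹ - 1) = wF N f * c⁻¹ - 1 := by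
    show wF N (f * c⁻¹ - 1) = wF N f * c⁻¹ - 1
    rw [map_sub, map_mul, map_inv₀, map_one, Fermat.Agent.A2.H553.wF_const N hcK]
  rw [h2] at h1
  exact h1

/-- **Reduction `1` on `C₀`.** -/
theorem isRedZero_one_of_constOne {f : FF N}
    (hf : Fermat.Agent.S33.H855.ConstOne
      (Fermat.Agent.A2.H553.constField (modularFunctionFieldFull N))
      (Fermat.Agent.A2.H553.VzeroModular A hp hA N) f) :
    IsRedZero N A f 1 :=
  isRedInf_one_of_constOne A hp hA (constOne_wF_of_constOne_Vzero A hp hA hf)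

end Red

section Series

/-- The constant series `1` has all orders divisible by `p`. -/
theorem pDivSeries_one (p M' : ℕ) (k : Type) [Field k] :
    PDivSeries p M' (1 : LaurentSeries k) :=
  ⟨1, rfl, one_ne_zero, fun Q => by rw [Place.ord_one]; exact dvd_zero _⟩

/-- The constant series `1` lies in `k((t^p))`. -/
theorem splitSeries_one (p : ℕ) (k : Type) [Field k] :
    SplitSeries p (1 : LaurentSeries k) := by
  intro n hn
  have hn0 : n ≠ 0 := by
    rintro rfl
    exact hn (dvd_zero _)
  rw [HahnSeries.coeff_one, if_neg hn0]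

end Series

section Main

variable (p M' : ℕ) [NeZero (p * M')] (A : ValuationSubring Kbar) (hp : p ≠ 0)
  (hA : A.LiesOverPrime p)

/-- A function with constant reductions on both components is `SplitGen`. -/
theorem splitGen_of_constRed {f : FF (p * M')}
    (hf : f ∈ Fermat.Agent.S33.H855.constRed A hp hA (p * M')) : SplitGen p M' A f :=
  ⟨1, 1, isRedInf_one_of_constOne A hp hA hf.1, isRedZero_one_of_constOne A hp hA hf.2,
    pDivSeries_one p M' _, pDivSeries_one p M' _, splitSeries_one p _, splitSeries_one p _⟩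

/-- `splitMin ⊆ splitSet`. -/
theorem mem_splitSet_of_mem_splitMin {y : JZero (p * M')}
    (hy : y ∈ Fermat.Agent.S33.H855.splitMin A hp hA (p * M')) : y ∈ splitSet p M' A := by
  obtain ⟨D, h, hh0, hhC, hD, hord⟩ := hy
  exact ⟨h, ⟨hh0, D, hD, hord⟩, splitGen_of_constRed p M' A hp hA hhC⟩

/-- **The adapter**: `splitMin ≤ splitPart`. -/
theorem splitMin_le_splitPart :
    Fermat.Agent.S33.H855.splitMin A hp hA (p * M') ≤ splitPart p M' A :=
  fun _ hy => AddSubgroup.subset_closure (mem_splitSet_of_mem_splitMin p M' A hp hA hy)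

/-- `splitMin ≤ finPart`. -/
theorem splitMin_le_finPart :
    Fermat.Agent.S33.H855.splitMin A hp hA (p * M') ≤ finPart p M' A :=
  (splitMin_le_splitPart p M' A hp hA).trans (splitPart_le_finPart p M' A)

end Main

end Fermat.Agent.S33.H862

end
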